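/-
Frames of sheaves of modules and the line systems attached to them.
-/
import Fermat.Agent.Jacobian.Line.Sections
import Fermat.Prelude.Def_AlgebraicGeometry_RelativePicardFunctor

set_option autoImplicit false
set_option linter.unusedVariables false

universe u

open CategoryTheory AlgebraicGeometry TopologicalSpace Opposite

noncomputable section

namespace Fermat.Agent.Jacobian

variable {X : Scheme.{u}}

/-- Restriction of sections of a module. -/
def mres (M : X.Modules) {U V : X.Opens} (h : V ≤ U) : Γ(M, U) →+ Γ(M, V) :=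
  (M.presheaf.map (homOfLE h).op).hom

theorem mres_res (M : X.Modules) {U V W : X.Opens} (h : V ≤ U) (h' : W ≤ V) (a : Γ(M, U)) :
    mres M h' (mres M h a) = mres M (h'.trans h) a := by
  show M.presheaf.map _ (M.presheaf.map _ a) = M.presheaf.map _ a
  rw [← ConcreteCategory.comp_apply, ← Functor.map_comp]
  rfl

theorem mres_self (M : X.Modules) {U : X.Opens} (h : U ≤ U) (a : Γ(M, U)) : mres M h a = a := by
  show M.presheaf.map (homOfLE h).op a = a
  rw [Subsingleton.elim (homOfLE h).op (𝟙 _), M.presheaf.map_id]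
  rfl

theorem mres_smul (M : X.Modules) {U V : X.Opens} (h : V ≤ U) (r : Γ(X, U)) (a : Γ(M, U)) :
    mres M h (r • a) = res h r • mres M h a :=
  Scheme.Modules.map_smul M (homOfLE h) r a

theorem app_mres {M N : X.Modules} (φ : M ⟶ N) {U V : X.Opens} (h : V ≤ U) (a : Γ(M, U)) :
    φ.app V (mres M h a) = mres N h (φ.app U a) :=
  ConcreteCategory.congr_hom (φ.mapPresheaf.naturality (homOfLE h).op) a

/-- A section generating the module freely over every smaller open set. -/
def IsFrame (M : X.Modules) {U : X.Opens} (s : Γ(M, U)) : Prop :=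
  ∀ (V : X.Opens) (h : V ≤ U), Function.Bijective fun r : Γ(X, V) => r • mres M h s

namespace IsFrame

variable {M N : X.Modules} {U : X.Opens} {s : Γ(M, U)}

theorem mres_frame (hs : IsFrame M s) {U' : X.Opens} (h : U' ≤ U) : IsFrame M (mres M h s) :=
  fun V h' => by
    simp only [mres_res]
    exact hs V (h'.trans h)

/-- The coordinate of a section in a frame. -/
def coeff (hs : IsFrame M s) {V : X.Opens} (h : V ≤ U) (a : Γ(M, V)) : Γ(X, V) :=
  (Equiv.ofBijective _ (hs V h)).symm a

theorem coeff_smul (hs : IsFrame M s) {V : X.Opens} (h : V ≤ U) (a : Γ(M, V)) :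
    hs.coeff h a • mres M h s = a :=
  (Equiv.ofBijective _ (hs V h)).apply_symm_apply a

theorem coeff_eq_of_eq (hs : IsFrame M s) {V : X.Opens} (h : V ≤ U) {a : Γ(M, V)} {r : Γ(X, V)}
    (hr : r • mres M h s = a) : hs.coeff h a = r :=
  (hs V h).1 ((hs.coeff_smul h a).trans hr.symm)

theorem res_coeff (hs : IsFrame M s) {V W : X.Opens} (i : W ≤ V) (h : V ≤ U) (a : Γ(M, V)) :
    res i (hs.coeff h a) = hs.coeff (i.trans h) (mres M i a) := by
  refine (hs.coeff_eq_of_eq _ ?_).symm
  rw [← mres_res M h i, ← mres_smul, hs.coeff_smul]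

theorem coeff_add (hs : IsFrame M s) {V : X.Opens} (h : V ≤ U) (a b : Γ(M, V)) :
    hs.coeff h (a + b) = hs.coeff h a + hs.coeff h b :=
  hs.coeff_eq_of_eq h (by rw [add_smul, coeff_smul, coeff_smul])

theorem coeff_smul_left (hs : IsFrame M s) {V : X.Opens} (h : V ≤ U) (r : Γ(X, V)) (a : Γ(M, V)) :
    hs.coeff h (r • a) = r * hs.coeff h a :=
  hs.coeff_eq_of_eq h (by rw [mul_smul, coeff_smul])

theorem app_iso (hs : IsFrame M s) (e : M ≅ N) : IsFrame N (e.hom.app U s) := fun V h => by
  have hb : Function.Bijective (e.hom.app V) := ConcreteCategory.bijective_of_isIso (e.hom.app V)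
  convert hb.comp (hs V h) using 1
  funext r
  show r • mres N h (e.hom.app U s) = e.hom.app V (r • mres M h s)
  rw [Scheme.Modules.Hom.app_smul, app_mres]

theorem coeff_app_iso (hs : IsFrame M s) (e : M ≅ N) {V : X.Opens} (h : V ≤ U) (a : Γ(M, V)) :
    (hs.app_iso e).coeff h (e.hom.app V a) = hs.coeff h a :=
  (hs.app_iso e).coeff_eq_of_eq h (by
    rw [← app_mres, ← Scheme.Modules.Hom.app_smul, hs.coeff_smul])

variable {U' : X.Opens} {t : Γ(M, U')}

theorem isUnit_coeff (hs : IsFrame M s) (ht : IsFrame M t) {V : X.Opens} (h : V ≤ U)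
    (h' : V ≤ U') : IsUnit (hs.coeff h (mres M h' t)) := by
  refine IsUnit.of_mul_eq_one (ht.coeff h' (mres M h s)) ((hs V h).1 ?_)
  show (_ * _) • mres M h s = (1 : Γ(X, V)) • mres M h s
  rw [mul_comm, mul_smul, hs.coeff_smul, ht.coeff_smul, one_smul]

/-- The unit `r` with `r • s = t`. -/
def ratio (hs : IsFrame M s) (ht : IsFrame M t) {V : X.Opens} (h : V ≤ U) (h' : V ≤ U') :
    Γ(X, V)ˣ :=
  (hs.isUnit_coeff ht h h').unit

theorem val_ratio (hs : IsFrame M s) (ht : IsFrame M t) {V : X.Opens} (h : V ≤ U)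
    (h' : V ≤ U') : (hs.ratio ht h h' : Γ(X, V)) = hs.coeff h (mres M h' t) := rfl

theorem ratio_smul (hs : IsFrame M s) (ht : IsFrame M t) {V : X.Opens} (h : V ≤ U)
    (h' : V ≤ U') : (hs.ratio ht h h' : Γ(X, V)) • mres M h s = mres M h' t :=
  hs.coeff_smul h _

theorem resU_ratio (hs : IsFrame M s) (ht : IsFrame M t) {V W : X.Opens} (i : W ≤ V) (h : V ≤ U)
    (h' : V ≤ U') : resU i (hs.ratio ht h h') = hs.ratio ht (i.trans h) (i.trans h') :=
  Units.ext (show res i (hs.ratio ht h h' : Γ(X, V)) = _ by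
    rw [val_ratio, res_coeff, mres_res, ← val_ratio])

theorem ratio_mul (hs : IsFrame M s) (ht : IsFrame M t) {U'' : X.Opens} {w : Γ(M, U'')}
    (hw : IsFrame M w) {V : X.Opens} (h : V ≤ U) (h' : V ≤ U') (h'' : V ≤ U'') :
    hs.ratio ht h h' * ht.ratio hw h' h'' = hs.ratio hw h h'' :=
  Units.ext (hs.coeff_eq_of_eq h (by
    rw [Units.val_mul, mul_comm, mul_smul, ratio_smul, ratio_smul])).symm

end IsFrame

/-- Frames at all points. -/
structure Frames (M : X.Modules) where
  U : X → X.Opens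
  mem : ∀ x, x ∈ U x
  e : ∀ x, Γ(M, U x)
  isFrame : ∀ x, IsFrame M (e x)

namespace Frames

variable {M N : X.Modules}

/-- The transition functions of a family of frames. -/
def sys (F : Frames M) : LineSys X where
  U := F.U
  mem := F.mem
  g x y V hx hy := (F.isFrame x).ratio (F.isFrame y) hx hy
  g_res x y V W i hx hy := (F.isFrame x).resU_ratio (F.isFrame y) i hx hy
  g_mul x y z V hx hy hz := (F.isFrame x).ratio_mul (F.isFrame y) (F.isFrame z) hx hy hz

theorem sys_iso (F G : Frames M) : Nonempty (LineSys.Iso F.sys G.sys) :=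
  ⟨{ h := fun x a V hx ha => (F.isFrame x).ratio (G.isFrame a) hx ha
     h_res := fun x a V W i hx ha => (F.isFrame x).resU_ratio (G.isFrame a) i hx ha
     g_h := fun x y a V hx hy ha =>
      (F.isFrame x).ratio_mul (F.isFrame y) (G.isFrame a) hx hy ha
     h_g := fun x a b V hx ha hb =>
      (F.isFrame x).ratio_mul (G.isFrame a) (G.isFrame b) hx ha hb }⟩

theorem mk_sys_eq (F G : Frames M) : LinePic.mk F.sys = LinePic.mk G.sys :=
  LinePic.mk_eq_mk.mpr (F.sys_iso G)

/-- Transport along an isomorphism. -/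
def mapIso (F : Frames M) (e : M ≅ N) : Frames N where
  U := F.U
  mem := F.mem
  e x := e.hom.app (F.U x) (F.e x)
  isFrame x := (F.isFrame x).app_iso e

theorem mk_sys_mapIso (F : Frames M) (e : M ≅ N) :
    LinePic.mk (F.mapIso e).sys = LinePic.mk F.sys := by
  have key : ∀ (x y : X) (V : X.Opens) (hx : V ≤ F.U x) (hy : V ≤ F.U y),
      (F.mapIso e).sys.g x y V hx hy = F.sys.g x y V hx hy := fun x y V hx hy => Units.ext (by
    show ((F.isFrame x).app_iso e).coeff hx (mres N hy (e.hom.app _ (F.e y))) = _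
    rw [← app_mres]
    exact (F.isFrame x).coeff_app_iso e hx _)
  refine LinePic.mk_eq_mk.mpr ⟨{ h := F.sys.g, h_res := F.sys.g_res, g_h := ?_, h_g := F.sys.g_mul }⟩
  intro x y a V hx hy ha
  rw [key x y V hx hy]
  exact F.sys.g_mul x y a V hx hy ha

end Frames

/-- An invertible module has frames. -/
theorem exists_isFrame {M : X.Modules} (hM : Scheme.Modules.IsInvertible M) (x : X) :
    ∃ (U : X.Opens) (_ : x ∈ U) (s : Γ(M, U)), IsFrame M s := by
  obtain ⟨U, hx, ⟨e⟩⟩ := hM.exists_trivialization x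
  let e' : M.restrict U.ι ≅ SheafOfModules.unit U.toScheme.ringCatSheaf :=
    (Scheme.Modules.restrictFunctorIsoPullback U.ι).app M ≪≫ e
  refine ⟨U.ι ''ᵁ ⊤, by simpa using hx,
    (e'.inv.app ⊤ : Γ(SheafOfModules.unit U.toScheme.ringCatSheaf, ⊤) →
      Γ(M.restrict U.ι, ⊤)) (1 : Γ(U.toScheme, ⊤)), fun V hV => ?_⟩
  have hVU : V ≤ U := hV.trans (by simp)
  have hV' : U.ι ''ᵁ (U.ι ⁻¹ᵁ V) = V := by
    rw [Scheme.Hom.image_preimage_eq_opensRange_inf, Scheme.Opens.opensRange_ι, inf_eq_right.mpr hVU]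
  generalize U.ι ⁻¹ᵁ V = W at hV'
  subst hV'
  have hb : Function.Bijective (e'.inv.app W) := ConcreteCategory.bijective_of_isIso (e'.inv.app W)
  let ψ : Γ(X, U.ι ''ᵁ W) → Γ(M, U.ι ''ᵁ W) := fun r => e'.inv.app W r
  refine (congrArg Function.Bijective (?_ : _ = ψ)).mpr hb
  funext r
  have h1 := Scheme.Modules.Hom.app_smul e'.inv (U := W) r (1 : Γ(U.toScheme, W))
  have h3 : e'.inv.app W (1 : Γ(U.toScheme, W)) =
      mres (M.restrict U.ι) (le_top : W ≤ ⊤) (e'.inv.app ⊤ (1 : Γ(U.toScheme, ⊤))) := by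
    refine Eq.trans (congrArg (e'.inv.app W) (map_one (res (le_top : W ≤ ⊤))).symm) ?_
    exact app_mres e'.inv (le_top : W ≤ ⊤) (1 : Γ(U.toScheme, ⊤))
  rw [h3] at h1
  refine Eq.trans ?_ (h1.symm.trans (congrArg (e'.inv.app W) (mul_one r)))
  have h4 : (U.ι.appIso W).inv r = r := by
    rw [Scheme.Opens.ι_appIso]
    rfl
  exact (congrArg (fun t : Γ(X, U.ι ''ᵁ W) =>
    t • mres M hV (e'.inv.app ⊤ (1 : Γ(U.toScheme, ⊤)))) h4).symm

/-- The chosen frames of an invertible module. -/
def Frames.ofInvertible {M : X.Modules} (hM : Scheme.Modules.IsInvertible M) : Frames M where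
  U x := (exists_isFrame hM x).choose
  mem x := (exists_isFrame hM x).choose_spec.choose
  e x := (exists_isFrame hM x).choose_spec.choose_spec.choose
  isFrame x := (exists_isFrame hM x).choose_spec.choose_spec.choose_spec

/-- The class of an invertible module. -/
def modCls (M : X.Modules) (hM : Scheme.Modules.IsInvertible M) : LinePic X :=
  LinePic.mk (Frames.ofInvertible hM).sys

theorem modCls_eq {M : X.Modules} (hM : Scheme.Modules.IsInvertible M) (F : Frames M) :
    modCls M hM = LinePic.mk F.sys :=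
  Frames.mk_sys_eq _ _

theorem modCls_congr {M N : X.Modules} (e : M ≅ N) (hM : Scheme.Modules.IsInvertible M)
    (hN : Scheme.Modules.IsInvertible N) : modCls M hM = modCls N hN := by
  rw [modCls_eq hN ((Frames.ofInvertible hM).mapIso e), Frames.mk_sys_mapIso]
  rfl

/-- A frame on `U` trivialises the restriction to `U`. -/
theorem nonempty_restrict_iso {M : X.Modules} {U : X.Opens} {s : Γ(M, U)} (hs : IsFrame M s) :
    Nonempty (M.restrict U.ι ≅ SheafOfModules.unit U.toScheme.ringCatSheaf) := by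
  have hle : ∀ W : U.toScheme.Opens, U.ι ''ᵁ W ≤ U := fun W => U.ι_image_le W
  let N : SheafOfModules.{u} U.toScheme.ringCatSheaf := M.restrict U.ι
  let σ : N.sections :=
    PresheafOfModules.sectionsMk (fun W => mres M (hle W.unop) s) fun {V W} i =>
      mres_res M (hle V.unop) (U.ι.image_mono (leOfHom i.unop)) s
  let φ : @Quiver.Hom U.toScheme.Modules _ (SheafOfModules.unit U.toScheme.ringCatSheaf)
      (M.restrict U.ι) :=
    N.unitHomEquiv.symm σ
  have h1 : ∀ (W : U.toScheme.Opens) (r : Γ(X, U.ι ''ᵁ W)),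
      φ.app W r = r • mres M (hle W) s := by
    intro W r
    have hone : φ.app W (1 : Γ(U.toScheme, W)) = mres M (hle W) s :=
      congrArg (fun t : N.sections => t.val (op W)) (N.unitHomEquiv.apply_symm_apply σ)
    have h2 := (congrArg (φ.app W) (mul_one r).symm).trans
      (Scheme.Modules.Hom.app_smul φ (U := W) r (1 : Γ(U.toScheme, W)))
    rw [hone] at h2
    refine h2.trans ?_
    have h4 : (U.ι.appIso W).inv r = r := by
      rw [Scheme.Opens.ι_appIso]
      rfl
    exact congrArg (fun t : Γ(X, U.ι ''ᵁ W) => t • mres M (hle W) s) h4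
  haveI : IsIso φ := Scheme.Modules.Hom.isIso_iff_isIso_app.mpr fun W => by
    rw [ConcreteCategory.isIso_iff_bijective]
    let ψ : Γ(X, U.ι ''ᵁ W) → Γ(M, U.ι ''ᵁ W) := fun r => φ.app W r
    show Function.Bijective ψ
    rw [show ψ = fun r => r • mres M (hle W) s from funext (h1 W)]
    exact hs _ (hle W)
  exact ⟨(asIso φ).symm⟩

/-- A module with frames is invertible. -/
theorem isInvertible_of_frames {M : X.Modules} (F : Frames M) :
    Scheme.Modules.IsInvertible M :=
  ⟨fun x => ⟨F.U x, F.mem x, (nonempty_restrict_iso (F.isFrame x)).map fun e =>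
    ((Scheme.Modules.restrictFunctorIsoPullback (F.U x).ι).app M).symm ≪≫ e⟩⟩

/-- The frame `1` of the structure sheaf. -/
def unitFrames (X : Scheme.{u}) : Frames (X := X) (SheafOfModules.unit X.ringCatSheaf) where
  U _ := ⊤
  mem _ := trivial
  e _ := (1 : Γ(X, ⊤))
  isFrame _ V h := by
    have h1 : (fun r : Γ(X, V) => r • mres (X := X) (SheafOfModules.unit X.ringCatSheaf) h
        (1 : Γ(X, ⊤))) = id := funext fun r => by
      show r * res h 1 = r
      rw [map_one, mul_one]
    rw [h1]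
    exact Function.bijective_id

theorem modCls_unit (X : Scheme.{u}) :
    modCls (SheafOfModules.unit X.ringCatSheaf) (Scheme.Modules.isInvertible_unit X) = 1 := by
  rw [modCls_eq _ (unitFrames X), LinePic.one_def]
  refine LinePic.mk_eq_mk.mpr ⟨{
    h := fun _ _ _ _ _ => 1
    h_res := fun _ _ _ _ _ _ _ => map_one _
    g_h := ?_
    h_g := fun _ _ _ _ _ _ _ => one_mul _ }⟩
  intro x y a V hx hy ha
  rw [mul_one]
  refine Units.ext ((unitFrames X).isFrame x |>.coeff_eq_of_eq hx ?_)
  show (1 : Γ(X, V)) • _ = _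
  rw [one_smul]
  rfl

end Fermat.Agent.Jacobian
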