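/-
The invertible sheaf of modules of sections of a line system.
-/
import Fermat.Agent.Jacobian.Bridge.Frames

set_option autoImplicit false
set_option linter.unusedVariables false

universe u

open CategoryTheory AlgebraicGeometry TopologicalSpace Opposite

noncomputable section

namespace Fermat.Agent.Jacobian

variable {X : Scheme.{u}}

namespace LineSys

variable (L : LineSys X)

theorem res_jointly {ι : Type*} (V : ι → X.Opens) (U : X.Opens) (hV : ∀ i, V i ≤ U)
    (hU : U ≤ iSup V) (a b : Γ(X, U)) (h : ∀ i, res (hV i) a = res (hV i) b) : a = b :=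
  X.sheaf.eq_of_locally_eq' V U (fun i => homOfLE (hV i)) hU a b h

theorem res_glue {ι : Type*} (V : ι → X.Opens) (U : X.Opens) (hV : ∀ i, V i ≤ U)
    (hU : U ≤ iSup V) (s : ∀ i, Γ(X, V i))
    (hs : ∀ i j, res (inf_le_left : V i ⊓ V j ≤ V i) (s i) = res inf_le_right (s j)) :
    ∃! t : Γ(X, U), ∀ i, res (hV i) t = s i :=
  X.sheaf.existsUnique_gluing' V U (fun i => homOfLE (hV i)) hU s hs

omit L in
theorem sys_congr {U : X → X.Opens} {mem : ∀ x, x ∈ U x}
    {g g' : ∀ (x y : X) (V : X.Opens), V ≤ U x → V ≤ U y → Γ(X, V)ˣ} {p q p' q'} (h : g = g') :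
    (⟨U, mem, g, p, q⟩ : LineSys X) = ⟨U, mem, g', p', q'⟩ := by
  subst h
  rfl

/-- Restriction of sections. -/
def secAbPresheaf : TopCat.Presheaf Ab X where
  obj V := AddCommGrpCat.of (L.Sec V.unop)
  map {V W} i := AddCommGrpCat.ofHom (AddMonoidHom.mk' (Sec.restrict (leOfHom i.unop))
    fun s t => rfl)
  map_id V := rfl
  map_comp i j := rfl

instance secAbPresheafModule (V : X.Opensᵒᵖ) :
    Module (X.ringCatSheaf.obj.obj V) (L.secAbPresheaf.obj V) :=
  inferInstanceAs (Module Γ(X, V.unop) (L.Sec V.unop))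

/-- The presheaf of modules of sections. -/
def secPresheaf : PresheafOfModules.{u} X.ringCatSheaf.obj :=
  PresheafOfModules.ofPresheaf L.secAbPresheaf fun V W i (r : Γ(X, V.unop)) (s : L.Sec V.unop) => by
    show Sec.restrict (leOfHom i.unop) (r • s) =
      res (leOfHom i.unop) r • Sec.restrict (leOfHom i.unop) s
    refine Sec.ext fun x Z h hx => ?_
    show res (h.trans (leOfHom i.unop)) r * _ = res h (res (leOfHom i.unop) r) * _
    rw [res_res]
    rfl

theorem secPresheaf_isSheaf : TopCat.Presheaf.IsSheaf L.secPresheaf.presheaf := by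
  rw [TopCat.Presheaf.isSheaf_iff_isSheafUniqueGluing]
  intro ι V sf hsf
  have hV : ∀ i, V i ≤ iSup V := le_iSup V
  let c : ∀ (i : ι) (x : X) (W : X.Opens), W ≤ V i → W ≤ L.U x → Γ(X, W) :=
    fun i x W h hx => Sec.coord (L := L) (sf i) x W h hx
  have hc : ∀ (i j : ι) (x : X) (W : X.Opens) (hi : W ≤ V i) (hj : W ≤ V j) (hx : W ≤ L.U x),
      c i x W hi hx = c j x W hj hx := fun i j x W hi hj hx =>
    congrArg (fun s : L.Sec (V i ⊓ V j) => s.coord x W (le_inf hi hj) hx) (hsf i j)
  have hcov : ∀ (W : X.Opens), W ≤ iSup V → W ≤ iSup fun i => W ⊓ V i := fun W h p hp => by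
    obtain ⟨i, hi⟩ := Opens.mem_iSup.mp (h hp)
    exact Opens.mem_iSup.mpr ⟨i, hp, hi⟩
  have hx : ∀ (x : X) (W : X.Opens) (h : W ≤ iSup V) (hx : W ≤ L.U x), ∃! t : Γ(X, W),
      ∀ i, res (inf_le_left : W ⊓ V i ≤ W) t = c i x _ inf_le_right (inf_le_left.trans hx) :=
    fun x W h hx => res_glue _ _ _ (hcov W h) _ fun i j =>
      (Sec.coord_res (L := L) (sf i) x _ _ _).trans ((hc i j x _ _ _ _).trans
        (Sec.coord_res (L := L) (sf j) x _ _ _).symm)
  choose t ht hu using hx
  refine ⟨(Sec.mk' t ?_ ?_ : L.Sec (iSup V)), fun i => ?_, fun s hs => ?_⟩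
  · intro x W W' i h hx
    refine hu x W' _ _ _ fun j => ?_
    have h1 := congrArg (res (inf_le_inf_right (V j) i)) (ht x W h hx j)
    rw [res_res, Sec.coord_res] at h1
    rw [res_res]
    exact h1
  · intro x y W h hx hy
    refine (hu x W h hx _ fun i => ?_).symm
    rw [map_mul, ht, show res (inf_le_left : W ⊓ V i ≤ W) (L.g x y W hx hy : Γ(X, W)) =
      Units.val (L.g x y (W ⊓ V i) (inf_le_left.trans hx) (inf_le_left.trans hy)) from
        congrArg Units.val (L.g_res x y inf_le_left hx hy)]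
    exact (Sec.coord_g (L := L) (sf i) x y _ _ _ _).symm
  · refine Sec.ext fun x W h hx => ?_
    show t x W (h.trans (hV i)) hx = c i x W h hx
    have h1 := congrArg (res (le_inf le_rfl h)) (ht x W (h.trans (hV i)) hx i)
    rw [res_res, res_self, Sec.coord_res] at h1
    exact h1
  · refine Sec.ext fun x W h hx => hu x W h hx _ fun i => ?_
    refine (Sec.coord_res (L := L) s x _ _ _).trans ?_
    exact congrArg (fun σ : L.Sec (V i) =>
      σ.coord x (W ⊓ V i) inf_le_right (inf_le_left.trans hx)) (hs i)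

/-- The sheaf of sections. -/
def toModules : X.Modules := ⟨L.secPresheaf, L.secPresheaf_isSheaf⟩

/-- A section of the line system as a section of the module. -/
def secTo {V : X.Opens} (s : L.Sec V) : Γ(L.toModules, V) := s

/-- A section of the module as a section of the line system. -/
def toSec {V : X.Opens} (s : Γ(L.toModules, V)) : L.Sec V := s

theorem toSec_mres {U V : X.Opens} (h : V ≤ U) (s : Γ(L.toModules, U)) :
    L.toSec (mres L.toModules h s) = (L.toSec s).restrict h := rfl

theorem toSec_smul {V : X.Opens} (r : Γ(X, V)) (s : Γ(L.toModules, V)) :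
    L.toSec (r • s) = r • L.toSec s := rfl

variable {L} {L' : LineSys X}

/-- The frame of the source at `x`, in the coordinates of the target. -/
def Iso.frame (e : Iso L L') (x : X) : L'.Sec (L.U x) :=
  Sec.mk' (fun a W h ha => ((e.h x a W h ha)⁻¹ : Γ(X, W)ˣ))
    (fun a W W' i h ha => congrArg Units.val
      (show resU i (e.h x a W h ha)⁻¹ = (e.h x a W' (i.trans h) (i.trans ha))⁻¹ by
        rw [map_inv, e.h_res]))
    (fun a b W h ha hb => by
      rw [← Units.val_mul]
      refine congrArg Units.val ?_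
      rw [← e.h_g x a b W h ha hb, mul_inv_rev, ← mul_assoc, mul_inv_cancel, one_mul])

theorem isFrame_frame (e : Iso L L') (x : X) :
    IsFrame L'.toModules (L'.secTo (e.frame x)) := by
  intro V hV
  constructor
  · intro r r' hr
    refine res_jointly (fun a : X => V ⊓ L'.U a) V (fun a => inf_le_left) (L'.le_iSup_U V) r r'
      fun a => ?_
    have h1 : res (inf_le_left : V ⊓ L'.U a ≤ V) r *
        Units.val ((e.h x a (V ⊓ L'.U a) (inf_le_left.trans hV) inf_le_right)⁻¹) =
        res inf_le_left r' *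
        Units.val ((e.h x a (V ⊓ L'.U a) (inf_le_left.trans hV) inf_le_right)⁻¹) :=
      congrArg (fun s : L'.Sec V => s.coord a (V ⊓ L'.U a) inf_le_left inf_le_right) hr
    exact (Units.mul_left_inj _).mp h1
  · intro σ
    have hcomp : ∀ a b : X, res (inf_le_left : (V ⊓ L'.U a) ⊓ (V ⊓ L'.U b) ≤ _)
        ((L'.toSec σ).coord a (V ⊓ L'.U a) inf_le_left inf_le_right *
          (e.h x a _ (inf_le_left.trans hV) inf_le_right : Γ(X, V ⊓ L'.U a))) =
        res (inf_le_right : (V ⊓ L'.U a) ⊓ (V ⊓ L'.U b) ≤ _)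
        ((L'.toSec σ).coord b (V ⊓ L'.U b) inf_le_left inf_le_right *
          (e.h x b _ (inf_le_left.trans hV) inf_le_right : Γ(X, V ⊓ L'.U b))) := fun a b => by
      let W := (V ⊓ L'.U a) ⊓ (V ⊓ L'.U b)
      have hW : W ≤ V := inf_le_left.trans inf_le_left
      have ha : W ≤ L'.U a := inf_le_left.trans inf_le_right
      have hb : W ≤ L'.U b := inf_le_right.trans inf_le_right
      rw [map_mul, map_mul, Sec.coord_res, Sec.coord_res,
        Sec.coord_g (L'.toSec σ) a b W hW ha hb]
      have h1 : ∀ (c : X) (hc : W ≤ L'.U c) (i : W ≤ V ⊓ L'.U c),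
          res i (e.h x c _ (inf_le_left.trans hV) inf_le_right : Γ(X, V ⊓ L'.U c)) =
            (e.h x c W (hW.trans hV) hc : Γ(X, W)) := fun c hc i =>
        congrArg Units.val (e.h_res x c i _ _)
      rw [h1 a ha, h1 b hb, ← e.h_g x a b W (hW.trans hV) ha hb, Units.val_mul]
      ring
    obtain ⟨r, hr, -⟩ := res_glue (fun a : X => V ⊓ L'.U a) V (fun a => inf_le_left)
      (L'.le_iSup_U V) _ hcomp
    refine ⟨r, (?_ : L'.toSec _ = L'.toSec σ)⟩
    refine Sec.ext fun a W h ha => ?_
    have h2 := congrArg (res (le_inf h ha)) (hr a)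
    rw [res_res, map_mul, Sec.coord_res] at h2
    rw [show res (le_inf h ha) (e.h x a _ (inf_le_left.trans hV) inf_le_right :
      Γ(X, V ⊓ L'.U a)) = (e.h x a W (h.trans hV) ha : Γ(X, W)) from
        congrArg Units.val (e.h_res x a _ _ _)] at h2
    show res h r * ((e.h x a W (h.trans hV) ha)⁻¹ : Γ(X, W)ˣ) = _
    rw [h2, mul_assoc, Units.mul_inv, mul_one]

/-- The frames of the target given by an isomorphism. -/
def Iso.frames (e : Iso L L') : Frames L'.toModules where
  U := L.U
  mem := L.mem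
  e x := L'.secTo (e.frame x)
  isFrame := isFrame_frame e

theorem frames_g (e : Iso L L') (x y : X) (V : X.Opens) (hx : V ≤ L.U x) (hy : V ≤ L.U y) :
    e.frames.sys.g x y V hx hy = L.g x y V hx hy := by
  refine Units.ext ((isFrame_frame e x).coeff_eq_of_eq hx ?_)
  show (_ : L'.Sec V) = _
  refine Sec.ext fun a W h ha => ?_
  show res h (L.g x y V hx hy : Γ(X, V)) * ((e.h x a W (h.trans hx) ha)⁻¹ : Γ(X, W)ˣ) =
    ((e.h y a W (h.trans hy) ha)⁻¹ : Γ(X, W)ˣ)
  rw [show res h (L.g x y V hx hy : Γ(X, V)) = (L.g x y W (h.trans hx) (h.trans hy) : Γ(X, W)) from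
    congrArg Units.val (L.g_res x y h hx hy), ← Units.val_mul]
  refine congrArg Units.val ?_
  rw [← e.g_h x y a W (h.trans hx) (h.trans hy) ha, mul_inv_rev, mul_left_comm, mul_inv_cancel,
    mul_one]

theorem frames_sys (e : Iso L L') : e.frames.sys = L := by
  have h : e.frames.sys.g = L.g := funext fun x => funext fun y => funext fun V =>
    funext fun hx => funext fun hy => frames_g e x y V hx hy
  exact sys_congr h

theorem isInvertible_toModules (L : LineSys X) : Scheme.Modules.IsInvertible L.toModules :=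
  isInvertible_of_frames (Iso.refl L).frames

end LineSys

end Fermat.Agent.Jacobian
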