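/-
An invertible module is the sheaf of sections of its line system.
-/
import Fermat.Agent.Jacobian.Bridge.SecModule

set_option autoImplicit false
set_option linter.unusedVariables false

universe u

open CategoryTheory AlgebraicGeometry TopologicalSpace Opposite

noncomputable section

namespace Fermat.Agent.Jacobian

variable {X : Scheme.{u}} {M : X.Modules}

theorem mres_jointly (M : X.Modules) {ι : Type*} (V : ι → X.Opens) (U : X.Opens)
    (hV : ∀ i, V i ≤ U) (hU : U ≤ iSup V) (a b : Γ(M, U))
    (h : ∀ i, mres M (hV i) a = mres M (hV i) b) : a = b :=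
  TopCat.Sheaf.eq_of_locally_eq' (⟨M.presheaf, M.isSheaf⟩ : TopCat.Sheaf Ab X) V U
    (fun i => homOfLE (hV i)) hU a b h

theorem mres_glue (M : X.Modules) {ι : Type*} (V : ι → X.Opens) (U : X.Opens)
    (hV : ∀ i, V i ≤ U) (hU : U ≤ iSup V) (s : ∀ i, Γ(M, V i))
    (hs : ∀ i j, mres M (inf_le_left : V i ⊓ V j ≤ V i) (s i) = mres M inf_le_right (s j)) :
    ∃! t : Γ(M, U), ∀ i, mres M (hV i) t = s i :=
  TopCat.Sheaf.existsUnique_gluing' (⟨M.presheaf, M.isSheaf⟩ : TopCat.Sheaf Ab X) V U
    (fun i => homOfLE (hV i)) hU s hs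

namespace Frames

variable (F : Frames M)

/-- The coordinates of a section in the frames. -/
def coordSec {V : X.Opens} (σ : Γ(M, V)) : F.sys.Sec V :=
  LineSys.Sec.mk' (fun x W h hx => (F.isFrame x).coeff hx (mres M h σ))
    (fun x W W' i h hx => by rw [IsFrame.res_coeff, mres_res])
    (fun x y W h hx hy => (F.isFrame x).coeff_eq_of_eq hx (by
      show (((F.isFrame x).ratio (F.isFrame y) hx hy : Γ(X, W)) * _) • _ = _
      rw [mul_comm, mul_smul, IsFrame.ratio_smul, IsFrame.coeff_smul]))

theorem coord_coordSec {V : X.Opens} (σ : Γ(M, V)) (x : X) (W : X.Opens) (h : W ≤ V)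
    (hx : W ≤ F.U x) :
    (F.coordSec σ).coord x W h hx = (F.isFrame x).coeff hx (mres M h σ) := rfl

theorem coordSec_add {V : X.Opens} (a b : Γ(M, V)) :
    F.coordSec (a + b) = F.coordSec a + F.coordSec b :=
  LineSys.Sec.ext fun x W h (hx : W ≤ F.U x) => by
    show (F.isFrame x).coeff hx (mres M h (a + b)) =
      (F.isFrame x).coeff hx (mres M h a) + (F.isFrame x).coeff hx (mres M h b)
    exact (congrArg _ (map_add (mres M h) a b)).trans (IsFrame.coeff_add _ hx _ _)

/-- The comparison with the sheaf of sections. -/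
def coordHom : M ⟶ F.sys.toModules :=
  show SheafOfModules.Hom M F.sys.toModules from
  ⟨PresheafOfModules.homMk
    { app := fun V => AddCommGrpCat.ofHom (AddMonoidHom.mk'
        (fun σ : Γ(M, V.unop) => F.sys.secTo (F.coordSec σ)) fun a b => F.coordSec_add a b)
      naturality := fun V W i => by
        refine AddCommGrpCat.ext fun σ => LineSys.Sec.ext fun x Z h hx => ?_
        show (F.isFrame x).coeff hx (mres M h (mres M (leOfHom i.unop) σ)) =
          (F.isFrame x).coeff hx (mres M (h.trans (leOfHom i.unop)) σ)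
        rw [mres_res] }
    fun V (r : Γ(X, V.unop)) (σ : Γ(M, V.unop)) => LineSys.Sec.ext fun x W h hx => by
      show (F.isFrame x).coeff hx (mres M h (r • σ)) = res h r * _
      rw [mres_smul, IsFrame.coeff_smul_left]
      rfl⟩

theorem coordHom_app {V : X.Opens} (σ : Γ(M, V)) :
    F.coordHom.app V σ = F.sys.secTo (F.coordSec σ) := rfl

theorem isIso_coordHom : IsIso F.coordHom := by
  refine Scheme.Modules.Hom.isIso_iff_isIso_app.mpr fun V => ?_
  rw [ConcreteCategory.isIso_iff_bijective]
  constructor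
  · intro a b hab
    refine mres_jointly M (fun x : X => V ⊓ F.U x) V (fun x => inf_le_left) (F.sys.le_iSup_U V)
      a b fun x => ?_
    have h1 : (F.isFrame x).coeff inf_le_right (mres M (inf_le_left : V ⊓ F.U x ≤ V) a) =
        (F.isFrame x).coeff inf_le_right (mres M inf_le_left b) :=
      congrArg (fun s : F.sys.Sec V => s.coord x (V ⊓ F.U x) inf_le_left inf_le_right) hab
    rw [← (F.isFrame x).coeff_smul inf_le_right (mres M inf_le_left a), h1, IsFrame.coeff_smul]
  · intro (s : F.sys.Sec V)
    obtain ⟨σ, hσ, -⟩ := mres_glue M (fun x : X => V ⊓ F.U x) V (fun x => inf_le_left)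
      (F.sys.le_iSup_U V)
      (fun x => s.coord x (V ⊓ F.U x) inf_le_left inf_le_right • mres M inf_le_right (F.e x))
      fun x y => by
        have hx : (V ⊓ F.U x) ⊓ (V ⊓ F.U y) ≤ F.U x := inf_le_left.trans inf_le_right
        have hy : (V ⊓ F.U x) ⊓ (V ⊓ F.U y) ≤ F.U y := inf_le_right.trans inf_le_right
        rw [mres_smul, mres_smul, LineSys.Sec.coord_res, LineSys.Sec.coord_res, mres_res, mres_res,
          s.coord_g x y _ _ _ hy]
        show (Units.val ((F.isFrame x).ratio (F.isFrame y) hx hy) * _) • _ = _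
        rw [mul_comm, mul_smul, IsFrame.ratio_smul]
    refine ⟨σ, (?_ : F.coordSec σ = s)⟩
    refine LineSys.Sec.ext fun x W h (hx : W ≤ F.U x) => (F.isFrame x).coeff_eq_of_eq hx ?_
    have h2 := congrArg (mres M (le_inf h hx : W ≤ V ⊓ F.U x)) (hσ x)
    rw [mres_res, mres_smul, LineSys.Sec.coord_res, mres_res] at h2
    exact h2.symm

/-- An invertible module is the module of sections of its system. -/
def coordIso : M ≅ F.sys.toModules :=
  haveI := F.isIso_coordHom
  asIso F.coordHom

end Frames

theorem nonempty_iso_of_sys_iso {N : X.Modules} (F : Frames M) (G : Frames N)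
    (e : LineSys.Iso F.sys G.sys) : Nonempty (M ≅ N) := by
  have h := e.frames.coordIso
  rw [LineSys.frames_sys] at h
  exact ⟨F.coordIso ≪≫ h.symm ≪≫ G.coordIso.symm⟩

theorem modCls_eq_iff (M N : X.Modules) (hM : Scheme.Modules.IsInvertible M)
    (hN : Scheme.Modules.IsInvertible N) : modCls M hM = modCls N hN ↔ Nonempty (M ≅ N) :=
  ⟨fun h => (LinePic.mk_eq_mk.mp h).elim (nonempty_iso_of_sys_iso _ _),
    fun ⟨e⟩ => modCls_congr e hM hN⟩

theorem exists_modCls_eq (a : LinePic X) :
    ∃ (M : X.Modules) (hM : Scheme.Modules.IsInvertible M), modCls M hM = a := by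
  obtain ⟨L, rfl⟩ := LinePic.mk_surjective a
  refine ⟨L.toModules, L.isInvertible_toModules, ?_⟩
  rw [modCls_eq _ (LineSys.Iso.refl L).frames, LineSys.frames_sys]

end Fermat.Agent.Jacobian
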