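/-
The dictionary between invertible sheaves of modules and `LinePic`.
-/
import Fermat.Agent.Jacobian.Bridge.Coord
import Fermat.Agent.Jacobian.Core.Defs

set_option autoImplicit false
set_option linter.unusedVariables false

universe u

open CategoryTheory AlgebraicGeometry TopologicalSpace Opposite

noncomputable section

namespace Fermat.Agent.Jacobian

variable {X Y : Scheme.{u}} (f : X ⟶ Y)

/-- Pullback of sections as a morphism of modules. -/
def pullSecHom (L : LineSys Y) :
    L.toModules ⟶ (Scheme.Modules.pushforward f).obj (L.pull f).toModules :=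
  show SheafOfModules.Hom L.toModules ((Scheme.Modules.pushforward f).obj (L.pull f).toModules) from
  ⟨PresheafOfModules.homMk
    { app := fun V => AddCommGrpCat.ofHom (AddMonoidHom.mk'
        (fun σ : L.Sec V.unop => (L.pull f).secTo (σ.pull f (le_refl (f ⁻¹ᵁ V.unop))))
        fun a b => LineSys.Sec.ext fun x W h hx => map_add (f.appLE _ W _).hom _ _)
      naturality := fun V W i => by
        refine AddCommGrpCat.ext fun (σ : L.Sec V.unop) => LineSys.Sec.ext fun x Z h hx => ?_
        show ((σ.restrict (leOfHom i.unop)).pull f (le_refl _)).coord x Z h hx =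
          (σ.pull f (le_refl _)).coord x Z (fun _ hp => leOfHom i.unop (h hp)) hx
        rw [LineSys.Sec.coord_pull f _ (σ.restrict (leOfHom i.unop)) x Z h hx
          (W.unop ⊓ L.U (f x)) inf_le_left inf_le_right (fun _ hp => ⟨h hp, hx hp⟩),
          LineSys.Sec.coord_pull f _ σ x Z _ hx (W.unop ⊓ L.U (f x))
          (inf_le_left.trans (leOfHom i.unop)) inf_le_right (fun _ hp => ⟨h hp, hx hp⟩)]
        rfl }
    fun V (r : Γ(Y, V.unop)) (σ : L.Sec V.unop) => LineSys.Sec.ext fun x W h hx => by
      show f.appLE _ W _ (res _ r * _) = res h (f.app V.unop r) * _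
      rw [map_mul, appLE_res]
      congr 1⟩

variable {M : Y.Modules}

/-- The unit of the adjunction, on sections. -/
def pullUnit (M : Y.Modules) (U : Y.Opens) (s : Γ(M, U)) :
    Γ((Scheme.Modules.pullback f).obj M, f ⁻¹ᵁ U) :=
  ((Scheme.Modules.pullbackPushforwardAdjunction f).unit.app M).app U s

theorem pullUnit_mres (M : Y.Modules) {U T : Y.Opens} (h : T ≤ U) (s : Γ(M, U)) :
    pullUnit f M T (mres M h s) =
      mres ((Scheme.Modules.pullback f).obj M) (f.preimage_mono h) (pullUnit f M U s) :=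
  app_mres ((Scheme.Modules.pullbackPushforwardAdjunction f).unit.app M) h s

theorem pullUnit_smul (M : Y.Modules) (U : Y.Opens) (r : Γ(Y, U)) (s : Γ(M, U)) :
    pullUnit f M U (r • s) = (f.app U r : Γ(X, f ⁻¹ᵁ U)) • pullUnit f M U s :=
  Scheme.Modules.Hom.app_smul ((Scheme.Modules.pullbackPushforwardAdjunction f).unit.app M) r s

/-- The images of frames are frames. -/
theorem isFrame_pullUnit (F : Frames M) (x : X) {W : X.Opens} {w : Γ((Scheme.Modules.pullback f).obj M, W)}
    (hw : IsFrame ((Scheme.Modules.pullback f).obj M) w) :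
    IsFrame ((Scheme.Modules.pullback f).obj M)
      (mres _ (inf_le_left : f ⁻¹ᵁ F.U (f x) ⊓ W ≤ _) (pullUnit f M (F.U (f x)) (F.e (f x)))) := by
  let φ := F.coordHom ≫ pullSecHom f F.sys
  let ψ := ((Scheme.Modules.pullbackPushforwardAdjunction f).homEquiv M
    (F.sys.pull f).toModules).symm φ
  have hψ : ∀ (U : Y.Opens) (s : Γ(M, U)), ψ.app (f ⁻¹ᵁ U) (pullUnit f M U s) = φ.app U s := by
    intro U s
    have h1 : (Scheme.Modules.pullbackPushforwardAdjunction f).unit.app M ≫
        (Scheme.Modules.pushforward f).map ψ = φ :=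
      (((Scheme.Modules.pullbackPushforwardAdjunction f).homEquiv_unit (f := ψ)).symm).trans
        (Equiv.apply_symm_apply _ φ)
    rw [← h1]
    rfl
  have himg : φ.app (F.U (f x)) (F.e (f x)) =
      (F.sys.pull f).secTo ((LineSys.Iso.refl (F.sys.pull f)).frame x) := by
    refine LineSys.Sec.ext fun a V h ha => ?_
    show ((F.coordSec (F.e (f x))).pull f (le_refl _)).coord a V h ha =
      (((F.sys.pull f).g x a V h ha)⁻¹ : Γ(X, V)ˣ)
    rw [LineSys.Sec.coord_pull f (V := F.U (f x)) _ _ a V h ha (F.U (f x) ⊓ F.U (f a)) inf_le_left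
      inf_le_right (fun _ hp => ⟨h hp, ha hp⟩), ← LineSys.g_symm,
      LineSys.pull_g f F.sys a x V (F.U (f x) ⊓ F.U (f a)) ha h inf_le_right inf_le_left
        (fun _ hp => ⟨h hp, ha hp⟩)]
    rfl
  suffices h : ∀ (W₀ : X.Opens) (hx₀ : W₀ ≤ f ⁻¹ᵁ F.U (f x)) (hw₀ : W₀ ≤ W),
      IsFrame _ (mres _ hx₀ (pullUnit f M (F.U (f x)) (F.e (f x)))) from
    h _ inf_le_left inf_le_right
  intro W₀ hx₀ hw₀
  have hs' := LineSys.isFrame_frame (LineSys.Iso.refl (F.sys.pull f)) x
  set u := hw.coeff hw₀ (mres _ hx₀ (pullUnit f M (F.U (f x)) (F.e (f x)))) with hu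
  set v := hs'.coeff (show W₀ ≤ (F.sys.pull f).U x from hx₀) (ψ.app W₀ (mres _ hw₀ w)) with hv
  have h2 : (u * v) • mres _ (show W₀ ≤ (F.sys.pull f).U x from hx₀)
      ((F.sys.pull f).secTo ((LineSys.Iso.refl (F.sys.pull f)).frame x)) =
      (1 : Γ(X, W₀)) • mres _ (show W₀ ≤ (F.sys.pull f).U x from hx₀)
      ((F.sys.pull f).secTo ((LineSys.Iso.refl (F.sys.pull f)).frame x)) := by
    rw [mul_smul, hv, hs'.coeff_smul, ← Scheme.Modules.Hom.app_smul, hu, hw.coeff_smul, one_smul,
      app_mres, hψ, himg]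
    rfl
  have huv : u * v = 1 := (hs' W₀ hx₀).1 h2
  rw [← hw.coeff_smul hw₀ (mres _ hx₀ (pullUnit f M (F.U (f x)) (F.e (f x)))), ← hu]
  intro V hV
  obtain ⟨u', hu'⟩ := (IsUnit.of_mul_eq_one v huv).map (res hV)
  have h3 : (fun r : Γ(X, V) => r • mres _ hV (u • mres _ hw₀ w)) =
      (fun r : Γ(X, V) => r • mres _ (hV.trans hw₀) w) ∘ fun r => r * u' := funext fun r => by
    rw [Function.comp_apply, mres_smul, mres_res, hu', mul_smul]
  rw [h3]
  exact (hw V (hV.trans hw₀)).comp (Units.mulRight u').bijective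

theorem modCls_pullback (M : Y.Modules) (hM : Scheme.Modules.IsInvertible M) :
    modCls ((Scheme.Modules.pullback f).obj M) (hM.pullback f) =
      LinePic.pullback f (modCls M hM) := by
  let F := Frames.ofInvertible hM
  let G := Frames.ofInvertible (hM.pullback f)
  let P : Frames ((Scheme.Modules.pullback f).obj M) :=
    { U := fun x => f ⁻¹ᵁ F.U (f x) ⊓ G.U x
      mem := fun x => ⟨F.mem (f x), G.mem x⟩
      e := fun x => mres _ inf_le_left (pullUnit f M (F.U (f x)) (F.e (f x)))
      isFrame := fun x => isFrame_pullUnit f F x (G.isFrame x) }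
  rw [modCls_eq _ P, modCls_eq hM F, LinePic.pullback_mk]
  have key : ∀ (x y : X) (V : X.Opens) (hx : V ≤ P.U x) (hy : V ≤ P.U y),
      P.sys.g x y V hx hy = (F.sys.pull f).g x y V (hx.trans inf_le_left) (hy.trans inf_le_left) := by
    intro x y V hx hy
    refine Units.ext ((P.isFrame x).coeff_eq_of_eq hx ?_)
    let T := F.U (f x) ⊓ F.U (f y)
    have hT : V ≤ f ⁻¹ᵁ T := fun _ hp => ⟨(hx.trans inf_le_left) hp, (hy.trans inf_le_left) hp⟩
    have h1 := congrArg (mres _ hT) ((congrArg (pullUnit f M T)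
      ((F.isFrame (f x)).ratio_smul (F.isFrame (f y)) (inf_le_left : T ≤ _) inf_le_right)))
    rw [pullUnit_smul, pullUnit_mres, pullUnit_mres, mres_smul, mres_res, mres_res] at h1
    rw [LineSys.pull_g f F.sys x y V T (hx.trans inf_le_left) (hy.trans inf_le_left) inf_le_left
      inf_le_right hT]
    show _ • mres _ hx (mres _ _ _) = mres _ hy (mres _ _ _)
    rw [mres_res, mres_res]
    refine Eq.trans ?_ h1
    rfl
  refine LinePic.mk_eq_mk.mpr ⟨{
    h := fun x a V hx ha => (F.sys.pull f).g x a V (hx.trans inf_le_left) ha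
    h_res := fun x a V W i hx ha => (F.sys.pull f).g_res x a i _ _
    g_h := ?_
    h_g := fun x a b V hx ha hb => (F.sys.pull f).g_mul x a b V _ ha hb }⟩
  intro x y a V hx hy ha
  rw [key x y V hx hy]
  exact (F.sys.pull f).g_mul x y a V _ _ ha

/-- The dictionary between invertible sheaves of modules and classes of line systems. -/
def modulesBridge : ModulesBridge.{u} where
  cls M hM := modCls M hM
  surj := exists_modCls_eq
  cls_eq_iff := modCls_eq_iff
  cls_unit := modCls_unit
  cls_pullback f M hM := modCls_pullback f M hM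

end Fermat.Agent.Jacobian
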